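/-
S48 (Deligne–Serre), chapter (DS-a1) NEBENTYPUS (helper8).  Analytic part.

* `star_eq` : the Hecke relation `a(np) + e·[p ∣ n]·a(n/p) = a·a(n)` on `q`-coefficients is the
  functional equation `U_p f + e·(f ∣ [p 0; 0 1]) = a·f` (weight `1`).
* `coeff_compare` : if `h(pτ) = p⁻¹·h'((τ + j)/p)` for all `τ`, then the `q`-coefficients of `h'`
  are supported on `p²ℕ` and `a_{p² n}(h') = p·a_n(h)`.
* `descent` : the resulting recursion kills all coefficients.
-/
import Mathlib
import Fermat.Prelude.Def_ModularForm_HeckeOperator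
import Fermat.Prelude.Def_FLTPrelim_Modularity
import Fermat.Prelude.Thm_UpperHalfPlane_qCoeff_heckeT

set_option autoImplicit false

noncomputable section

namespace Fermat.Agent.DS.Neben.CoeffCompare8

open Complex Function Filter
open UpperHalfPlane hiding I
open scoped Real MatrixGroups ModularForm Manifold Topology
open ModularForm ModularFormClass
open P2MW.S_UpperHalfPlane_qCoeff_heckeT.M4cP1W2

variable {p : ℕ}

/-- A function on `ℍ` with a `q`-expansion at `∞` of period `1`. -/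
structure Nice (f : ℍ → ℂ) : Prop where
  per : Periodic (f ∘ ofComplex) 1
  hol : MDiff f
  bdd : IsBoundedAtImInfty f

theorem Nice.hasSum {f : ℍ → ℂ} (hf : Nice f) (τ : ℍ) :
    HasSum (fun m ↦ qCoeff f m • Periodic.qParam 1 τ ^ m) (f τ) :=
  hasSum_qExpansion one_pos hf.per hf.hol hf.bdd τ

/-- Uniqueness of the coefficients. -/
theorem Nice.coeff_unique {f : ℍ → ℂ} (hf : Nice f) {c : ℕ → ℂ}
    (hs : ∀ τ : ℍ, HasSum (fun m ↦ c m • Periodic.qParam 1 τ ^ m) (f τ)) (m : ℕ) :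
    c m = qCoeff f m :=
  qExpansion_coeff_unique' hf.hol.continuous
    (analyticAt_cuspFunction_zero one_pos hf.per hf.hol hf.bdd) hs m

/-- A nice function with vanishing `q`-coefficients vanishes. -/
theorem Nice.eq_zero {f : ℍ → ℂ} (hf : Nice f) (h : ∀ m, qCoeff f m = 0) : f = 0 := by
  funext τ
  have := hf.hasSum τ
  simp only [h, zero_smul] at this
  exact this.unique hasSum_zero

/-- **The Hecke relation on coefficients is a functional equation** (weight `1`). -/
theorem star_eq (hp : p ≠ 0) {f : ℍ → ℂ} (hf : Nice f) (a e : ℂ)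
    (hT : ∀ n : ℕ, qCoeff f (n * p) + e * (if p ∣ n then qCoeff f (n / p) else 0)
      = a * qCoeff f n) :
    heckeU 1 p f + e • (f ∣[(1 : ℤ)] heckeDiagMatrix p) = a • f := by
  funext τ
  have h1 := hasSum_heckeU hp hf.per hf.hol hf.bdd 1 τ
  have h2 := (hasSum_diag hp hf.per hf.hol hf.bdd 1 τ).mul_left e
  have h3 := (hf.hasSum τ).mul_left a
  have h12 := h1.add h2
  have hval : (heckeU 1 p f + e • (f ∣[(1 : ℤ)] heckeDiagMatrix p)) τ
      = heckeU 1 p f τ + e * ((p : ℂ) ^ ((1 : ℤ) - 1) * f (heckeDiagMatrix p • τ)) := by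
    simp only [Pi.add_apply, Pi.smul_apply, smul_eq_mul, slash_heckeDiagMatrix_apply 1 hp]
  rw [hval, Pi.smul_apply, smul_eq_mul]
  have hfun : (fun n : ℕ ↦ coeffHeckeU p (qCoeff f) n • Periodic.qParam 1 τ ^ n +
      e * (if p ∣ n then (p : ℂ) ^ ((1 : ℤ) - 1) * qCoeff f (n / p) * Periodic.qParam 1 τ ^ n
        else 0)) = fun n : ℕ ↦ a * qCoeff f n • Periodic.qParam 1 τ ^ n := by
    funext n
    simp only [coeffHeckeU_apply, smul_eq_mul, sub_self, zpow_zero, one_mul]
    rw [← mul_assoc, ← hT n]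
    split_ifs <;> ring
  rw [hfun] at h12
  exact h12.unique h3

section compare

variable (hp : p ≠ 0)
include hp

theorem qParam_diag_diag (τ : ℍ) :
    Periodic.qParam 1 ((heckeDiagMatrix p • (heckeDiagMatrix p • τ) : ℍ) : ℂ)
      = Periodic.qParam 1 τ ^ (p ^ 2) := by
  rw [qParam_heckeDiagMatrix_smul hp, qParam_heckeDiagMatrix_smul hp, ← pow_mul, sq]

theorem qParam_hecke_diag (j : ℕ) (τ : ℍ) :
    Periodic.qParam 1 ((heckeMatrix p j • (heckeDiagMatrix p • τ) : ℍ) : ℂ)
      = Periodic.qParam 1 τ * exp (2 * π * I / p) ^ j := by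
  rw [qParam_heckeMatrix_smul hp, coe_heckeDiagMatrix_smul hp, qParam_one]
  congr 2
  have := natCast_ne_zero' hp
  field_simp

omit hp in
theorem exp_pow_ne_zero (j m : ℕ) : (exp (2 * π * I / p) ^ j) ^ m ≠ 0 :=
  pow_ne_zero _ (pow_ne_zero _ (exp_ne_zero _))

theorem exp_pow_eq_one_of_dvd (j : ℕ) {m : ℕ} (hm : p ∣ m) :
    (exp (2 * π * I / p) ^ j) ^ m = 1 := by
  have hζ := Complex.isPrimitiveRoot_exp p hp
  rw [← pow_mul, mul_comm j m, pow_mul, (hζ.pow_eq_one_iff_dvd m).mpr hm, one_pow]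

/-- The function `τ ↦ h(p²τ)` is nice. -/
theorem nice_diag_diag {h : ℍ → ℂ} (hh : Nice h) :
    Nice (fun τ : ℍ ↦ h (heckeDiagMatrix p • (heckeDiagMatrix p • τ))) := by
  have heq : (fun τ : ℍ ↦ h (heckeDiagMatrix p • (heckeDiagMatrix p • τ)))
      = (h ∣[(1 : ℤ)] heckeDiagMatrix p) ∣[(1 : ℤ)] heckeDiagMatrix p := by
    funext τ
    rw [slash_heckeDiagMatrix_apply 1 hp, slash_heckeDiagMatrix_apply 1 hp]
    simp
  refine ⟨?_, ?_, ?_⟩
  · refine periodic_comp_ofComplex_of_vadd fun τ ↦ ?_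
    refine apply_eq_of_coe_eq_add_nat hh.per (p ^ 2) ?_
    rw [coe_heckeDiagMatrix_smul hp, coe_heckeDiagMatrix_smul hp, coe_heckeDiagMatrix_smul hp,
      coe_heckeDiagMatrix_smul hp, coe_vadd]
    push_cast
    ring
  · rw [heq]
    exact (hh.hol.slash 1 _).slash 1 _
  · rw [heq]
    exact (hh.bdd.slash 1 (heckeDiagMatrix_one_zero p)).slash 1 (heckeDiagMatrix_one_zero p)

/-- **Coefficient comparison.** -/
theorem coeff_compare {h h' : ℍ → ℂ} (hh : Nice h) (hh' : Nice h') (j : ℕ)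
    (hrel : ∀ τ : ℍ, h (heckeDiagMatrix p • τ) = (p : ℂ)⁻¹ * h' (heckeMatrix p j • τ)) (m : ℕ) :
    qCoeff h' m = if p ^ 2 ∣ m then (p : ℂ) * qCoeff h (m / p ^ 2) else 0 := by
  have hp' : (p : ℂ) ≠ 0 := natCast_ne_zero' hp
  have hp2 : p ^ 2 ≠ 0 := pow_ne_zero 2 hp
  set g : ℍ → ℂ := fun τ ↦ h (heckeDiagMatrix p • (heckeDiagMatrix p • τ)) with hg
  have hgn : Nice g := nice_diag_diag hp hh
  -- expansion A
  have hA : ∀ τ : ℍ, HasSum (fun m : ℕ ↦ (if p ^ 2 ∣ m then qCoeff h (m / p ^ 2) else 0)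
      • Periodic.qParam 1 τ ^ m) (g τ) := by
    intro τ
    have h0 := hh.hasSum (heckeDiagMatrix p • (heckeDiagMatrix p • τ))
    rw [qParam_diag_diag hp] at h0
    have hinj : Function.Injective (fun l : ℕ ↦ l * p ^ 2) := mul_left_injective₀ hp2
    refine (hinj.hasSum_iff (fun m hm ↦ ?_)).mp ?_
    · have : ¬ p ^ 2 ∣ m := by
        rintro ⟨l, rfl⟩
        exact hm ⟨l, by simp [mul_comm]⟩
      simp [this]
    · convert h0 using 1
      funext l
      simp only [comp_apply, if_pos (dvd_mul_left (p ^ 2) l),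
        Nat.mul_div_cancel _ (Nat.pos_of_ne_zero hp2), smul_eq_mul]
      rw [← pow_mul, mul_comm l (p ^ 2)]
  -- expansion B
  have hB : ∀ τ : ℍ, HasSum (fun m : ℕ ↦ ((p : ℂ)⁻¹ * (qCoeff h' m *
      (exp (2 * π * I / p) ^ j) ^ m)) • Periodic.qParam 1 τ ^ m) (g τ) := by
    intro τ
    have h0 := (hh'.hasSum (heckeMatrix p j • (heckeDiagMatrix p • τ))).mul_left ((p : ℂ)⁻¹)
    rw [qParam_hecke_diag hp, ← hrel (heckeDiagMatrix p • τ)] at h0
    have hfun : (fun m : ℕ ↦ ((p : ℂ)⁻¹ * (qCoeff h' m *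
        (exp (2 * π * I / p) ^ j) ^ m)) • Periodic.qParam 1 τ ^ m)
        = fun m : ℕ ↦ (p : ℂ)⁻¹ * qCoeff h' m •
          (Periodic.qParam 1 τ * exp (2 * π * I / p) ^ j) ^ m := by
      funext m
      simp only [smul_eq_mul, mul_pow]
      ring
    rw [hfun]
    exact h0
  have hcA := hgn.coeff_unique hA m
  have hcB := hgn.coeff_unique hB m
  have hAB : (if p ^ 2 ∣ m then qCoeff h (m / p ^ 2) else 0)
      = (p : ℂ)⁻¹ * (qCoeff h' m * (exp (2 * π * I / p) ^ j) ^ m) := hcA.trans hcB.symm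
  split_ifs with hm
  · rw [if_pos hm] at hAB
    have hpm : p ∣ m := (dvd_pow_self p two_ne_zero).trans hm
    rw [exp_pow_eq_one_of_dvd hp j hpm, mul_one] at hAB
    rw [hAB, ← mul_assoc, mul_inv_cancel₀ hp', one_mul]
  · rw [if_neg hm] at hAB
    have h0 : qCoeff h' m * (exp (2 * π * I / p) ^ j) ^ m = 0 := by
      have := hAB.symm
      rcases mul_eq_zero.mp this with h1 | h1
      · exact absurd h1 (inv_ne_zero hp')
      · exact h1
    rcases mul_eq_zero.mp h0 with h1 | h1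
    · exact h1
    · exact absurd h1 (exp_pow_ne_zero j m)

end compare

/-- **Descent**: the recursion of `coeff_compare` along a permutation of the index set kills all
coefficients of positive index. -/
theorem descent (hp1 : 1 < p) {ι : Type*} (σ : ι ≃ ι) (C : ι → ℕ → ℂ)
    (hrec : ∀ i m, C (σ i) m = if p ^ 2 ∣ m then (p : ℂ) * C i (m / p ^ 2) else 0)
    (h0 : ∀ i, C i 0 = 0) : ∀ m i, C i m = 0 := by
  intro m
  induction m using Nat.strong_induction_on with
  | _ m ih =>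
    intro i
    rcases Nat.eq_zero_or_pos m with rfl | hm
    · exact h0 i
    · have := hrec (σ.symm i) m
      rw [Equiv.apply_symm_apply] at this
      rw [this]
      split_ifs with hd
      · have hlt : m / p ^ 2 < m := by
          apply Nat.div_lt_self hm
          calc 1 < p := hp1
            _ ≤ p ^ 2 := by nlinarith
        rw [ih _ hlt, mul_zero]
      · rfl

end Fermat.Agent.DS.Neben.CoeffCompare8
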