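/-
S48 (Deligne–Serre), chapter (DS-a1) NEBENTYPUS (helper8).  The diamond family.

For `f ∈ S₁(Γ₁(N))` and `g ∈ Γ₀(N)`: `dia f g = f ∣[1] g ∈ S₁(Γ₁(N))`, depending only on the lower
right entry of `g` modulo `N`; existence of elements of `Γ₀(M)`, `N ∣ M`, with a prescribed lower
right entry modulo `N`.
-/
import Mathlib
import Fermat.Agent.DS.Neben.CoeffCompare8

set_option autoImplicit false
set_option linter.unusedSectionVars false

noncomputable section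

namespace Fermat.Agent.DS.Neben.Family8

open CongruenceSubgroup Matrix.SpecialLinearGroup UpperHalfPlane ModularForm ModularFormClass
open scoped MatrixGroups ModularForm Manifold
open Fermat.Agent.DS.Neben.CoeffCompare8

variable {N : ℕ}

/-- An element of `Γ₀(N)` whose image under `Gamma0Map` is `1` lies in `Γ₁(N)`. -/
theorem mem_Gamma1_of_map_eq_one (a : Gamma0 N) (h : Gamma0Map N a = 1) :
    (a : SL(2, ℤ)) ∈ Gamma1 N := by
  have ha : a ∈ Gamma1' N := Gamma1_mem'.mpr h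
  exact ⟨⟨a, ha⟩, Subgroup.mem_top _, rfl⟩

theorem Gamma0Map_mul_inv_eq_one {a₁ a₂ : Gamma0 N} (h : Gamma0Map N a₁ = Gamma0Map N a₂) :
    Gamma0Map N (a₁ * a₂⁻¹) = 1 := by
  rw [map_mul, h, ← map_mul, mul_inv_cancel, map_one]

/-- `f ∣ g` only depends on the lower right entry of `g ∈ Γ₀(N)` modulo `N`. -/
theorem slash_eq_of_map_eq (f : CuspForm (Gamma1 N) 1) {a₁ a₂ : Gamma0 N}
    (h : Gamma0Map N a₁ = Gamma0Map N a₂) :
    (f : ℍ → ℂ) ∣[(1 : ℤ)] mapGL ℝ (a₁ : SL(2, ℤ)) = (f : ℍ → ℂ) ∣[(1 : ℤ)] mapGL ℝ (a₂ : SL(2, ℤ)) := by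
  have hmem : ((a₁ * a₂⁻¹ : Gamma0 N) : SL(2, ℤ)) ∈ Gamma1 N :=
    mem_Gamma1_of_map_eq_one _ (Gamma0Map_mul_inv_eq_one h)
  have heq : (a₁ : SL(2, ℤ)) = ((a₁ * a₂⁻¹ : Gamma0 N) : SL(2, ℤ)) * (a₂ : SL(2, ℤ)) := by
    rw [← Subgroup.coe_mul, inv_mul_cancel_right]
  conv_lhs => rw [heq, map_mul, SlashAction.slash_mul]
  congr 1
  exact f.slash_action_eq' _ ⟨_, hmem, rfl⟩

theorem one_mem_strictPeriods :
    (1 : ℝ) ∈ (Subgroup.map (mapGL ℝ) (Gamma1 N)).strictPeriods := by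
  have hT : ModularGroup.T ∈ Gamma1 N := by
    rw [Gamma1_mem]
    simp [ModularGroup.T]
  rw [Subgroup.strictPeriods_eq_zmultiples_one_of_T_mem hT]
  exact AddSubgroup.mem_zmultiples 1

variable [NeZero N]

/-- **The diamond family** `g ↦ f ∣[1] g`, `g ∈ Γ₀(N)`, inside `S₁(Γ₁(N))`. -/
def dia (f : CuspForm (Gamma1 N) 1) (a : Gamma0 N) : CuspForm (Gamma1 N) 1 where
  toFun := (f : ℍ → ℂ) ∣[(1 : ℤ)] mapGL ℝ (a : SL(2, ℤ))
  slash_action_eq' := by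
    rintro _ ⟨γ, hγ, rfl⟩
    have hγ0 : γ ∈ Gamma0 N := Gamma1_in_Gamma0 N hγ
    have h1 : Gamma0Map N ⟨γ, hγ0⟩ = 1 := ((Gamma1_mem N γ).mp hγ).2.1
    have := slash_eq_of_map_eq f (a₁ := a * ⟨γ, hγ0⟩) (a₂ := a) (by rw [map_mul, h1, mul_one])
    rw [← SlashAction.slash_mul, ← map_mul]
    exact this
  holo' := (CuspFormClass.holo f).slash 1 _
  zero_at_cusps' := by
    intro c hc
    rw [← OnePoint.IsZeroAt.smul_iff]
    refine CuspFormClass.zero_at_cusps f ?_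
    rw [Subgroup.IsArithmetic.isCusp_iff_isCusp_SL2Z] at hc ⊢
    exact hc.smul_of_mem ⟨_, rfl⟩

theorem coe_dia (f : CuspForm (Gamma1 N) 1) (a : Gamma0 N) :
    ⇑(dia f a) = (f : ℍ → ℂ) ∣[(1 : ℤ)] mapGL ℝ (a : SL(2, ℤ)) := rfl

theorem dia_one (f : CuspForm (Gamma1 N) 1) : dia f 1 = f := by
  apply DFunLike.ext
  intro τ
  rw [coe_dia]
  simp

theorem dia_eq_of_map_eq (f : CuspForm (Gamma1 N) 1) {a₁ a₂ : Gamma0 N}
    (h : Gamma0Map N a₁ = Gamma0Map N a₂) : dia f a₁ = dia f a₂ :=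
  DFunLike.coe_injective (slash_eq_of_map_eq f h)

/-- Slashing `dia f a` by an element of `Γ₀(N)`. -/
theorem dia_slash (f : CuspForm (Gamma1 N) 1) (a : Gamma0 N) (b : SL(2, ℤ)) (hb : b ∈ Gamma0 N) :
    (⇑(dia f a)) ∣[(1 : ℤ)] mapGL ℝ b = ⇑(dia f (a * ⟨b, hb⟩)) := by
  rw [coe_dia, coe_dia, ← SlashAction.slash_mul, ← map_mul]
  rfl

/-- Cusp forms of level `Γ₁(N)` are nice. -/
theorem nice_coe (f : CuspForm (Gamma1 N) 1) : Nice (f : ℍ → ℂ) := by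
  have : Fact (IsCusp OnePoint.infty (Subgroup.map (mapGL ℝ) (Gamma1 N))) :=
    ⟨Subgroup.isCusp_of_mem_strictPeriods one_pos one_mem_strictPeriods⟩
  exact ⟨SlashInvariantFormClass.periodic_comp_ofComplex f one_mem_strictPeriods,
    CuspFormClass.holo f, bdd_at_infty f⟩

theorem qCoeff_zero (f : CuspForm (Gamma1 N) 1) : qCoeff (f : ℍ → ℂ) 0 = 0 :=
  CuspFormClass.qExpansion_coeff_zero f one_pos one_mem_strictPeriods

/-- **Existence of elements of `Γ₀(M)` with prescribed lower right entry modulo `N ∣ M`.** -/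
theorem exists_mem_Gamma0 {M : ℕ} [NeZero M] (hNM : N ∣ M) (u : (ZMod N)ˣ) :
    ∃ g : SL(2, ℤ), (M : ℤ) ∣ g 1 0 ∧ ((g 1 1 : ℤ) : ZMod N) = (u : ZMod N) := by
  obtain ⟨v, hv⟩ := ZMod.unitsMap_surjective hNM u
  -- an integer representative `d` of `v`, coprime to `M`
  set d : ℤ := ((v : ZMod M).val : ℤ) with hd
  have hdv : ((d : ℤ) : ZMod M) = (v : ZMod M) := by
    rw [hd]; simp
  have hcop : IsCoprime d (M : ℤ) := by
    have h1 : Nat.Coprime (v : ZMod M).val M := ZMod.val_coe_unit_coprime v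
    rw [hd]
    exact Nat.isCoprime_iff_coprime.mpr h1
  obtain ⟨a, b, hab⟩ := hcop
  refine ⟨⟨!![a, -b; (M : ℤ), d], ?_⟩, ?_, ?_⟩
  · rw [Matrix.det_fin_two_of]
    linear_combination hab
  · simp
  · have hu : (u : ZMod N) = ZMod.castHom hNM (ZMod N) (v : ZMod M) := by
      rw [← hv]; rfl
    rw [hu, ← hdv]
    simp

theorem exists_Gamma0 {M : ℕ} [NeZero M] (hNM : N ∣ M) (u : (ZMod N)ˣ) :
    ∃ a : Gamma0 N, (M : ℤ) ∣ (a : SL(2, ℤ)) 1 0 ∧ Gamma0Map N a = (u : ZMod N) := by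
  obtain ⟨g, hg, hgu⟩ := exists_mem_Gamma0 hNM u
  have hg0 : g ∈ Gamma0 N := by
    rw [Gamma0_mem, ZMod.intCast_zmod_eq_zero_iff_dvd]
    exact (Int.natCast_dvd_natCast.mpr hNM).trans hg
  exact ⟨⟨g, hg0⟩, hg, hgu⟩

/-- `Gamma0Map` takes values in the units. -/
theorem isUnit_Gamma0Map (a : Gamma0 N) : IsUnit (Gamma0Map N a) := by
  refine IsUnit.of_mul_eq_one (Gamma0Map N a⁻¹) ?_
  rw [← map_mul, mul_inv_cancel, map_one]

end Fermat.Agent.DS.Neben.Family8
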