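/-
S48 (Deligne–Serre), chapter (DS-a1) NEBENTYPUS (helper8).  Main theorem.

**`nebentypus`** : a weight-one cusp form `f` on `Γ₁(N)` whose `q`-coefficients satisfy the Hecke
relations `a(pn) + ε(p)·[p ∣ n]·a(n/p) = a(p)·a(n)` for all primes `p ∤ N` (the literal hypothesis
`hT` of the frozen statement S48) has nebentypus `ε`:  `f ∣[1] g = ε(g₁₁) • f` for all `g ∈ Γ₀(N)`.

No general Hecke theory, no Sturm bound: the functional equation `U_p f + ε(p)·V_p f = a_p f`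
is slashed by one element of `Γ₁(N)` with `p ∤ c`; the `p + 1` cosets are permuted, two of them
pick up the diamonds `⟨p⟩`, `⟨p⁻¹⟩`; the resulting identity `h ∣ [p 0; 0 1] = ⟨p⁻¹⟩h ∣ [1 j; 0 p]`
for `h = ⟨p⟩f − ε(p) f` forces the `q`-coefficients of `h` to be supported on `p^∞ℕ`, so `h = 0`;
Dirichlet's theorem on primes in arithmetic progressions finishes.
-/
import Mathlib
import Fermat.Agent.DS.Neben.CosetTrack8
import Fermat.Agent.DS.Neben.Family8

set_option autoImplicit false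
set_option linter.unusedSectionVars false

noncomputable section

namespace Fermat.Agent.DS.Neben.Main8

open CongruenceSubgroup Matrix.SpecialLinearGroup UpperHalfPlane ModularForm ModularFormClass
open scoped MatrixGroups ModularForm Manifold OnePoint
open Fermat.Agent.DS.Neben.CoeffCompare8 Fermat.Agent.DS.Neben.CosetTrack8
open Fermat.Agent.DS.Neben.Family8

/-! ### Slash as a linear map -/

/-- Weight-one slash by a matrix of positive determinant, as a `ℂ`-linear map. -/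
def slashL (A : GL (Fin 2) ℝ) (hA : UpperHalfPlane.σ A = .refl ℝ ℂ) : (ℍ → ℂ) →ₗ[ℂ] (ℍ → ℂ) where
  toFun F := F ∣[(1 : ℤ)] A
  map_add' := SlashAction.add_slash _ _
  map_smul' c F := by
    simp only [RingHom.id_apply]
    rw [ModularForm.smul_slash, hA]
    rfl

@[simp] theorem slashL_apply (A : GL (Fin 2) ℝ) (hA : UpperHalfPlane.σ A = .refl ℝ ℂ) (F : ℍ → ℂ) :
    slashL A hA F = F ∣[(1 : ℤ)] A := rfl

theorem σ_mapGL (g : SL(2, ℤ)) : UpperHalfPlane.σ (mapGL ℝ g) = .refl ℝ ℂ := by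
  rw [UpperHalfPlane.σ, if_pos]
  simp

theorem σ_heckeRep (p : ℕ) (x : OnePoint (ZMod p)) :
    UpperHalfPlane.σ (heckeRep p x) = .refl ℝ ℂ := by
  induction x using OnePoint.rec with
  | infty => exact σ_heckeDiagMatrix p
  | coe j => exact σ_heckeMatrix p j.val

variable {N p : ℕ} [NeZero N] [Fact p.Prime]

/-! ### The weighted Hecke sum -/

/-- The weight of the representative `μ_x`: `e` at `∞`, `1` at finite points. -/
def wt (p : ℕ) (e : ℂ) (x : OnePoint (ZMod p)) : ℂ := x.elim e (fun _ ↦ 1)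

@[simp] theorem wt_infty (e : ℂ) : wt p e ∞ = e := rfl

@[simp] theorem wt_coe (e : ℂ) (j : ZMod p) : wt p e (j : OnePoint (ZMod p)) = 1 := rfl

/-- `W_e F = ∑_x w_x • F ∣ μ_x = U_p F + e • F ∣ [p 0; 0 1]`. -/
def W (p : ℕ) [Fact p.Prime] (e : ℂ) (F : ℍ → ℂ) : ℍ → ℂ :=
  ∑ x : OnePoint (ZMod p), wt p e x • (F ∣[(1 : ℤ)] heckeRep p x)

theorem W_eq (e : ℂ) (F : ℍ → ℂ) :
    W p e F = heckeU 1 p F + e • (F ∣[(1 : ℤ)] heckeDiagMatrix p) := by
  rw [W, heckeU_eq_sum_zmod, add_comm]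
  refine (Fintype.sum_option
    (fun x : OnePoint (ZMod p) ↦ wt p e x • (F ∣[(1 : ℤ)] heckeRep p x))).trans ?_
  congr 1
  refine Finset.sum_congr rfl fun j _ ↦ ?_
  show wt p e (j : OnePoint (ZMod p)) • _ = _
  rw [wt_coe, one_smul]
  rfl

/-- **Slashing the weighted Hecke sum of `dia f a` by `g ∈ Γ₀(N)`**, with a choice `Tsel x` of
elements of `Γ₀(N)` realising the diamond twists. -/
theorem W_slash (hpN : ¬ p ∣ N) (e : ℂ) (f : CuspForm (Gamma1 N) 1) (a : Gamma0 N)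
    (g : SL(2, ℤ)) (hg : g ∈ Gamma0 N) (Tsel : OnePoint (ZMod p) → Gamma0 N)
    (hT : ∀ x, Gamma0Map N (Tsel x) = Gamma0Map N ⟨g, hg⟩ * tau p N x (redMatrix p g • x)) :
    (W p e ⇑(dia f a)) ∣[(1 : ℤ)] mapGL ℝ g =
      ∑ x : OnePoint (ZMod p), wt p e x •
        ((⇑(dia f (a * Tsel x))) ∣[(1 : ℤ)] heckeRep p (redMatrix p g • x)) := by
  have hgN : (N : ℤ) ∣ g 1 0 :=
    (ZMod.intCast_zmod_eq_zero_iff_dvd _ _).mp (Gamma0_mem.mp hg)
  rw [← slashL_apply _ (σ_mapGL g), W, map_sum]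
  refine Finset.sum_congr rfl fun x _ ↦ ?_
  rw [map_smul, slashL_apply]
  congr 1
  obtain ⟨g', hg'N, hg'11, hmul⟩ := heckeRep_mul_track hpN g hgN x
  have hg'0 : g' ∈ Gamma0 N := Gamma0_mem.mpr ((ZMod.intCast_zmod_eq_zero_iff_dvd _ _).mpr hg'N)
  rw [← SlashAction.slash_mul, hmul, SlashAction.slash_mul, dia_slash f a g' hg'0]
  congr 2
  apply dia_eq_of_map_eq
  rw [map_mul, map_mul, hT x]
  congr 1

/-! ### The functional equation and its propagation -/

/-- The functional equation `U_p F + e • F ∣ [p 0; 0 1] = c • F`. -/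
def Star (p : ℕ) [Fact p.Prime] (c e : ℂ) (F : ℍ → ℂ) : Prop := W p e F = c • F

theorem redMatrix_smul_infty_of_dvd (g : SL(2, ℤ)) (h : (p : ℤ) ∣ g 1 0) :
    redMatrix p g • (∞ : OnePoint (ZMod p)) = ∞ := by
  rw [OnePoint.smul_infty_eq_ite, if_pos]
  rw [redMatrix_apply_one_zero]
  exact (ZMod.intCast_zmod_eq_zero_iff_dvd _ _).mpr h

theorem redMatrix_smul_eq_infty_iff_of_dvd (g : SL(2, ℤ)) (h : (p : ℤ) ∣ g 1 0)
    (x : OnePoint (ZMod p)) : redMatrix p g • x = ∞ ↔ x = ∞ := by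
  constructor
  · intro hx
    have h2 : redMatrix p g • x = redMatrix p g • (∞ : OnePoint (ZMod p)) := by
      rw [hx, redMatrix_smul_infty_of_dvd g h]
    exact MulAction.injective (redMatrix p g) h2
  · rintro rfl
    exact redMatrix_smul_infty_of_dvd g h

theorem wt_redMatrix_smul_of_dvd (e : ℂ) (g : SL(2, ℤ)) (h : (p : ℤ) ∣ g 1 0)
    (x : OnePoint (ZMod p)) : wt p e (redMatrix p g • x) = wt p e x := by
  induction x using OnePoint.rec with
  | infty => rw [redMatrix_smul_infty_of_dvd g h]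
  | coe j =>
    have hne : redMatrix p g • (j : OnePoint (ZMod p)) ≠ ∞ := by
      intro hx
      have := (redMatrix_smul_eq_infty_iff_of_dvd g h _).mp hx
      exact OnePoint.coe_ne_infty j this
    obtain ⟨y, hy⟩ := OnePoint.ne_infty_iff_exists.mp hne
    rw [← hy, wt_coe, wt_coe]

theorem tau_redMatrix_smul_of_dvd (g : SL(2, ℤ)) (h : (p : ℤ) ∣ g 1 0)
    (x : OnePoint (ZMod p)) : tau p N x (redMatrix p g • x) = 1 := by
  induction x using OnePoint.rec with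
  | infty => rw [redMatrix_smul_infty_of_dvd g h, tau_infty_infty]
  | coe j =>
    have hne : redMatrix p g • (j : OnePoint (ZMod p)) ≠ ∞ := by
      intro hx
      have := (redMatrix_smul_eq_infty_iff_of_dvd g h _).mp hx
      exact OnePoint.coe_ne_infty j this
    obtain ⟨y, hy⟩ := OnePoint.ne_infty_iff_exists.mp hne
    rw [← hy, tau_coe_coe]

/-- **Propagation**: the functional equation passes from `dia f a` to `dia f (a * b)` for
`b ∈ Γ₀(N)` with `p ∣ b₁₀`. -/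
theorem star_mul (hpN : ¬ p ∣ N) (c e : ℂ) (f : CuspForm (Gamma1 N) 1) (a b : Gamma0 N)
    (hb : (p : ℤ) ∣ (b : SL(2, ℤ)) 1 0) (h : Star p c e ⇑(dia f a)) :
    Star p c e ⇑(dia f (a * b)) := by
  have h1 := W_slash hpN e f a (b : SL(2, ℤ)) b.2 (fun _ ↦ b) (fun x ↦ by
    rw [tau_redMatrix_smul_of_dvd _ hb, mul_one])
  rw [h, ← slashL_apply _ (σ_mapGL _), map_smul, slashL_apply, dia_slash f a _ b.2] at h1
  have h3 : (⟨(b : SL(2, ℤ)), b.2⟩ : Gamma0 N) = b := Subtype.coe_eta b b.2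
  rw [h3] at h1
  rw [Star, W, h1]
  have h2 := Equiv.sum_comp (MulAction.toPerm (redMatrix p (b : SL(2, ℤ))))
    (fun x ↦ wt p e x • ((⇑(dia f (a * b))) ∣[(1 : ℤ)] heckeRep p x))
  rw [← h2]
  refine Finset.sum_congr rfl fun x _ ↦ ?_
  simp only [MulAction.toPerm_apply]
  rw [wt_redMatrix_smul_of_dvd e _ hb]

/-- The functional equation holds for every member of the diamond family. -/
theorem star_all (hpN : ¬ p ∣ N) (c e : ℂ) (f : CuspForm (Gamma1 N) 1)
    (h : Star p c e ⇑f) (a : Gamma0 N) : Star p c e ⇑(dia f a) := by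
  have : NeZero (p * N) := ⟨Nat.mul_ne_zero (Fact.out : p.Prime).ne_zero (NeZero.ne N)⟩
  obtain ⟨b, hb, hbu⟩ := exists_Gamma0 (M := p * N) (dvd_mul_left N p) (isUnit_Gamma0Map a).unit
  have hpb : (p : ℤ) ∣ (b : SL(2, ℤ)) 1 0 := by
    refine dvd_trans ?_ hb
    push_cast
    exact dvd_mul_right _ _
  have h1 : Star p c e ⇑(dia f (1 * b)) := star_mul hpN c e f 1 b hpb (by rwa [dia_one])
  have h2 : dia f a = dia f (1 * b) := by
    apply dia_eq_of_map_eq
    rw [one_mul, hbu]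
    rfl
  rw [h2]
  exact h1

/-! ### The key identity -/

/-- `γ₀ = [1 0; N 1] ∈ Γ₁(N)`. -/
def gam0 (N : ℕ) : SL(2, ℤ) := ⟨!![1, 0; (N : ℤ), 1], by simp [Matrix.det_fin_two_of]⟩

theorem gam0_mem_Gamma1 (N : ℕ) : gam0 N ∈ Gamma1 N := by
  rw [Gamma1_mem]
  simp [gam0]

theorem gam0_mem_Gamma0 (N : ℕ) : gam0 N ∈ Gamma0 N := Gamma1_in_Gamma0 N (gam0_mem_Gamma1 N)

theorem Gamma0Map_gam0 (N : ℕ) : Gamma0Map N ⟨gam0 N, gam0_mem_Gamma0 N⟩ = 1 :=
  ((Gamma1_mem N _).mp (gam0_mem_Gamma1 N)).2.1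

theorem gam0_smul_infty_ne (hpN : ¬ p ∣ N) :
    redMatrix p (gam0 N) • (∞ : OnePoint (ZMod p)) ≠ ∞ := by
  rw [Ne, OnePoint.smul_infty_eq_self_iff, redMatrix_apply_one_zero]
  have h : ((gam0 N) 1 0 : ℤ) = (N : ℤ) := by simp [gam0]
  rw [h, Int.cast_natCast, ZMod.natCast_eq_zero_iff]
  exact hpN

theorem Gamma0Map_inv_of_eq (hpN : ¬ p ∣ N) (Pp : Gamma0 N)
    (hPp : Gamma0Map N Pp = (p : ZMod N)) : Gamma0Map N Pp⁻¹ = ((p : ZMod N))⁻¹ := by
  have h1 : Gamma0Map N Pp⁻¹ * (p : ZMod N) = 1 := by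
    rw [← hPp, ← map_mul, inv_mul_cancel, map_one]
  calc Gamma0Map N Pp⁻¹ = Gamma0Map N Pp⁻¹ * ((p : ZMod N) * ((p : ZMod N))⁻¹) := by
        rw [natCast_mul_inv hpN, mul_one]
    _ = ((p : ZMod N))⁻¹ := by rw [← mul_assoc, h1, one_mul]

/-- **The key identity**: slashing the functional equation of `dia f a` by `γ₀` and comparing
with the functional equation itself. -/
theorem key_identity (hpN : ¬ p ∣ N) (c e : ℂ) (f : CuspForm (Gamma1 N) 1)
    (hstar : ∀ a : Gamma0 N, Star p c e ⇑(dia f a))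
    (Pp Pm : Gamma0 N) (hPp : Gamma0Map N Pp = (p : ZMod N))
    (hPm : Gamma0Map N Pm = ((p : ZMod N))⁻¹) (a : Gamma0 N) :
    ∃ j : ℕ, (⇑(dia f (a * Pp)) - e • ⇑(dia f a)) ∣[(1 : ℤ)] heckeDiagMatrix p =
      (⇑(dia f a) - e • ⇑(dia f (a * Pm))) ∣[(1 : ℤ)] heckeMatrix p j := by
  classical
  set γ := redMatrix p (gam0 N) with hγ
  obtain ⟨y0, hy0⟩ := OnePoint.ne_infty_iff_exists.mp (gam0_smul_infty_ne (N := N) hpN)
  set xs : OnePoint (ZMod p) := γ⁻¹ • ∞ with hxs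
  have hγxs : γ • xs = ∞ := by rw [hxs, smul_inv_smul]
  have hxs_ne : xs ≠ ∞ := by
    intro h
    rw [h] at hγxs
    exact gam0_smul_infty_ne hpN hγxs
  obtain ⟨x0, hx0⟩ := OnePoint.ne_infty_iff_exists.mp hxs_ne
  have hfin : ∀ x : OnePoint (ZMod p), x ≠ ∞ → x ≠ xs →
      ∃ j j' : ZMod p, x = (j : OnePoint (ZMod p)) ∧ γ • x = (j' : OnePoint (ZMod p)) := by
    intro x h1 h2
    obtain ⟨j, hj⟩ := OnePoint.ne_infty_iff_exists.mp h1
    have h3 : γ • x ≠ ∞ := by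
      intro h
      apply h2
      rw [hxs, ← h, inv_smul_smul]
    obtain ⟨j', hj'⟩ := OnePoint.ne_infty_iff_exists.mp h3
    exact ⟨j, j', hj.symm, hj'.symm⟩
  let Tsel : OnePoint (ZMod p) → Gamma0 N :=
    fun x ↦ if x = ∞ then Pm else if x = xs then Pp else 1
  have hTsel : ∀ x, Gamma0Map N (Tsel x) =
      Gamma0Map N ⟨gam0 N, gam0_mem_Gamma0 N⟩ * tau p N x (γ • x) := by
    intro x
    rw [Gamma0Map_gam0, one_mul]
    by_cases h1 : x = ∞
    · have : Tsel x = Pm := if_pos h1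
      rw [this, h1, ← hy0, tau_infty_coe, hPm]
    · by_cases h2 : x = xs
      · have : Tsel x = Pp := by
          show (if x = ∞ then Pm else if x = xs then Pp else 1) = Pp
          rw [if_neg h1, if_pos h2]
        rw [this, h2, hγxs, ← hx0, tau_coe_infty, hPp]
      · have : Tsel x = 1 := by
          show (if x = ∞ then Pm else if x = xs then Pp else 1) = 1
          rw [if_neg h1, if_neg h2]
        obtain ⟨j, j', hj, hj'⟩ := hfin x h1 h2
        rw [this, map_one, hj', hj, tau_coe_coe]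
  have hA := W_slash hpN e f a (gam0 N) (gam0_mem_Gamma0 N) Tsel hTsel
  rw [hstar a, ← slashL_apply _ (σ_mapGL _), map_smul, slashL_apply,
    dia_slash f a _ (gam0_mem_Gamma0 N),
    dia_eq_of_map_eq f (a₁ := a * ⟨gam0 N, gam0_mem_Gamma0 N⟩) (a₂ := a)
      (by rw [map_mul, Gamma0Map_gam0, mul_one])] at hA
  have hB : c • ⇑(dia f a) = ∑ x : OnePoint (ZMod p),
      wt p e (γ • x) • (⇑(dia f a)) ∣[(1 : ℤ)] heckeRep p (γ • x) := by
    rw [← hstar a, W]
    exact (Equiv.sum_comp (MulAction.toPerm γ)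
      (fun x ↦ wt p e x • (⇑(dia f a)) ∣[(1 : ℤ)] heckeRep p x)).symm
  have hD : ∑ x : OnePoint (ZMod p),
      (wt p e x • (⇑(dia f (a * Tsel x))) ∣[(1 : ℤ)] heckeRep p (γ • x)
        - wt p e (γ • x) • (⇑(dia f a)) ∣[(1 : ℤ)] heckeRep p (γ • x)) = 0 := by
    rw [Finset.sum_sub_distrib, ← hA, ← hB, sub_self]
  rw [Fintype.sum_eq_add ∞ xs hxs_ne.symm] at hD
  · have hT1 : Tsel ∞ = Pm := if_pos rfl
    have hT2 : Tsel xs = Pp := by
      show (if xs = ∞ then Pm else if xs = xs then Pp else 1) = Pp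
      rw [if_neg hxs_ne, if_pos rfl]
    rw [hT1, hT2, hγxs, ← hy0, ← hx0, wt_infty, wt_coe, wt_coe, heckeRep_infty, heckeRep_coe,
      one_smul, one_smul] at hD
    refine ⟨y0.val, ?_⟩
    rw [← slashL_apply _ (σ_heckeDiagMatrix p), ← slashL_apply _ (σ_heckeMatrix p y0.val),
      map_sub, map_sub, map_smul, map_smul, slashL_apply, slashL_apply, slashL_apply,
      slashL_apply]
    linear_combination (norm := module) hD
  · rintro x ⟨h1, h2⟩
    have : Tsel x = 1 := by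
      show (if x = ∞ then Pm else if x = xs then Pp else 1) = 1
      rw [if_neg h1, if_neg h2]
    obtain ⟨j, j', hj, hj'⟩ := hfin x h1 h2
    rw [this, mul_one, hj', hj, wt_coe, wt_coe, sub_self]

/-! ### Descent -/

/-- `H_a = ⟨p⟩(f ∣ a) − e • (f ∣ a)` as a cusp form. -/
def Hf (f : CuspForm (Gamma1 N) 1) (e : ℂ) (Pp a : Gamma0 N) : CuspForm (Gamma1 N) 1 :=
  dia f (a * Pp) - e • dia f a

theorem coe_Hf (f : CuspForm (Gamma1 N) 1) (e : ℂ) (Pp a : Gamma0 N) :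
    ⇑(Hf f e Pp a) = ⇑(dia f (a * Pp)) - e • ⇑(dia f a) := rfl

/-- The diamond family is an eigen-family for `⟨p⟩` with eigenvalue `e`. -/
theorem Hf_eq_zero (hpN : ¬ p ∣ N) (c e : ℂ) (f : CuspForm (Gamma1 N) 1)
    (hstar : ∀ a : Gamma0 N, Star p c e ⇑(dia f a))
    (Pp : Gamma0 N) (hPp : Gamma0Map N Pp = (p : ZMod N)) (a : Gamma0 N) :
    (⇑(Hf f e Pp a) : ℍ → ℂ) = 0 := by
  have hp : p ≠ 0 := (Fact.out : p.Prime).ne_zero
  have hp1 : 1 < p := (Fact.out : p.Prime).one_lt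
  have hPm := Gamma0Map_inv_of_eq hpN Pp hPp
  have hrec : ∀ (a : Gamma0 N) (m : ℕ), qCoeff ⇑(Hf f e Pp (Equiv.mulRight Pp⁻¹ a)) m =
      if p ^ 2 ∣ m then (p : ℂ) * qCoeff ⇑(Hf f e Pp a) (m / p ^ 2) else 0 := by
    intro a m
    obtain ⟨j, hj⟩ := key_identity hpN c e f hstar Pp Pp⁻¹ hPp hPm a
    refine coeff_compare hp (nice_coe _) (nice_coe _) j ?_ m
    intro τ
    have h1 := congrFun hj τ
    rw [slash_heckeDiagMatrix_apply 1 hp, slash_heckeMatrix_apply 1 hp] at h1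
    rw [coe_Hf, coe_Hf, Equiv.coe_mulRight, inv_mul_cancel_right]
    simpa using h1
  have hall := descent hp1 (Equiv.mulRight Pp⁻¹) (fun a m ↦ qCoeff ⇑(Hf f e Pp a) m) hrec
    (fun a ↦ qCoeff_zero _)
  exact (nice_coe _).eq_zero fun m ↦ hall m a

/-- **The diamond operator `⟨p⟩` acts on `f` by `e`** once the functional equation holds. -/
theorem dia_eq_smul (hpN : ¬ p ∣ N) (c e : ℂ) (f : CuspForm (Gamma1 N) 1)
    (hstar : Star p c e ⇑f) (Pp : Gamma0 N) (hPp : Gamma0Map N Pp = (p : ZMod N)) :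
    (⇑(dia f Pp) : ℍ → ℂ) = e • ⇑f := by
  have h := Hf_eq_zero hpN c e f (star_all hpN c e f hstar) Pp hPp 1
  rw [coe_Hf, one_mul, dia_one, sub_eq_zero] at h
  exact h


/-! ### The theorem -/

/-- **(DS-a1) The nebentypus is forced by the Hecke relations.**  A weight-one cusp form on
`Γ₁(N)` whose `q`-coefficients satisfy the literal hypothesis `hT` of the frozen statement S48
transforms under `Γ₀(N)` by the character `ε`. -/
theorem nebentypus (N : ℕ) [NeZero N] (ε : DirichletCharacter ℂ N) (f : CuspForm (Gamma1 N) 1)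
    (hT : ∀ p : ℕ, p.Prime → ¬ p ∣ N → ∀ n : ℕ,
        ModularFormClass.qCoeff f (p * n) +
            ε (p : ZMod N) * (if p ∣ n then ModularFormClass.qCoeff f (n / p) else 0) =
          ModularFormClass.qCoeff f p * ModularFormClass.qCoeff f n) :
    ∀ g : SL(2, ℤ), g ∈ Gamma0 N →
      (f : ℍ → ℂ) ∣[(1 : ℤ)] mapGL ℝ g = ε ((g 1 1 : ℤ) : ZMod N) • (f : ℍ → ℂ) := by
  intro g hg
  have hu : IsUnit (Gamma0Map N ⟨g, hg⟩) := isUnit_Gamma0Map _
  obtain ⟨p, hpgt, hpp, hpu⟩ := Nat.forall_exists_prime_gt_and_eq_mod hu N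
  have : Fact p.Prime := ⟨hpp⟩
  have hpN : ¬ p ∣ N := fun h ↦ absurd (Nat.le_of_dvd (NeZero.pos N) h) (not_le.mpr hpgt)
  have hstar : Star p (qCoeff ⇑f p) (ε (p : ZMod N)) ⇑f := by
    rw [Star, W_eq]
    refine star_eq hpp.ne_zero (nice_coe f) _ _ fun n ↦ ?_
    rw [mul_comm n p]
    exact hT p hpp hpN n
  have h := dia_eq_smul hpN _ _ f hstar ⟨g, hg⟩ hpu.symm
  rw [coe_dia] at h
  rw [h, hpu]
  rfl

/-- Pointwise form: `f(γτ) = ε(d)(cτ + d) f(τ)` packaged as the slash action of `SL(2, ℤ)`. -/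
theorem nebentypus_SL (N : ℕ) [NeZero N] (ε : DirichletCharacter ℂ N) (f : CuspForm (Gamma1 N) 1)
    (hT : ∀ p : ℕ, p.Prime → ¬ p ∣ N → ∀ n : ℕ,
        ModularFormClass.qCoeff f (p * n) +
            ε (p : ZMod N) * (if p ∣ n then ModularFormClass.qCoeff f (n / p) else 0) =
          ModularFormClass.qCoeff f p * ModularFormClass.qCoeff f n)
    (g : Gamma0 N) :
    (f : ℍ → ℂ) ∣[(1 : ℤ)] (g : SL(2, ℤ)) = ε (Gamma0Map N g) • (f : ℍ → ℂ) :=
  nebentypus N ε f hT g g.2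


end Fermat.Agent.DS.Neben.Main8
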